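import Fermat.Agent.S55.G.HP.Spec

/-!
# S55 / layer G / adapter HP / leaf HP-D4b (helper717), part 1: the map `V → D_𝔪`

Setting: `U ≤ G_ℚ`, `E/ℚ` finite normal, `G = lvlGal U E`, `𝔪` a place of `E ⊗ ℚ_S`,
`σ : E_𝔪 → ℚ̄_Q` a ring embedding with `σ (x ⊗ 1) = ι_Q (g⁻¹ x)` and `σ (1 ⊗ y) ∈ ℚ_Q`.
For `τ ∈ V = locSub Q g U` the element `dOf τ = (g · loc τ · g⁻¹)|_E` lies in the decomposition
group `D_𝔪` and `σ ∘ dOf τ = τ ∘ σ`.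
-/

set_option autoImplicit false
set_option linter.unusedSectionVars false
set_option linter.style.haveILetI false

open scoped NumberField TensorProduct
open IsDedekindDomain CategoryTheory groupCohomology

noncomputable section

namespace Fermat.Agent.S55.G.HP.D4bH717

open Fermat.Agent.S55.G Fermat.Agent.S55.G.HP

local notation "Qb" => AlgebraicClosure ℚ
local notation "GQ" => (AlgebraicClosure ℚ ≃ₐ[ℚ] AlgebraicClosure ℚ)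

variable (U : Subgroup GQ) (E : IntermediateField ℚ Qb) [FiniteDimensional ℚ E] [Normal ℚ E]
variable (S : Finset Nat.Primes) (𝔪 : SPlace S E)
variable (Q : ℕ) [Fact Q.Prime] (g : GQ)

/-- The element `(g · loc τ · g⁻¹)|_E` of `lvlGal U E`, for `τ ∈ V = locSub Q g U`. -/
def dOf (τ : ↥(Rec.locSub Q g U)) : ↥(lvlGal U E) := lvlHom U E (Rec.locHom Q g U τ)

lemma dOf_mul (τ τ' : ↥(Rec.locSub Q g U)) :
    dOf U E Q g (τ * τ') = dOf U E Q g τ * dOf U E Q g τ' := by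
  unfold dOf
  rw [map_mul, map_mul]

lemma dOf_one : dOf U E Q g 1 = 1 := by
  unfold dOf
  rw [map_one, map_one]

lemma dOf_inv (τ : ↥(Rec.locSub Q g U)) : dOf U E Q g τ⁻¹ = (dOf U E Q g τ)⁻¹ := by
  unfold dOf
  rw [map_inv, map_inv]

/-- `ι (g⁻¹ (dOf τ • x)) = τ (ι (g⁻¹ x))`. -/
lemma padicEmbedding_dOf (τ : ↥(Rec.locSub Q g U)) (x : E) :
    padicEmbedding Q (g⁻¹ (((dOf U E Q g τ) • x : E) : Qb)) =
      (τ : PadicAlgCl Q ≃ₐ[ℚ_[Q]] PadicAlgCl Q) (padicEmbedding Q (g⁻¹ (x : Qb))) := by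
  have h1 : (((dOf U E Q g τ) • x : E) : Qb) =
      ((Rec.locHom Q g U τ : ↥U) : GQ) (x : Qb) := lvlHom_apply_coe U E _ x
  rw [h1, Rec.locHom_coe, ← padicEmbedding_localGaloisToGlobal]
  congr 1
  simp [AlgEquiv.mul_apply]

variable {S 𝔪 Q}
variable (σ : LocField S 𝔪 →+* PadicAlgCl Q)

/-- `Φ = σ ∘ mk : E ⊗ ℚ_S → ℚ̄_Q`. -/
def Phi : AS S E →+* PadicAlgCl Q := σ.comp (LocField.mk S 𝔪)

lemma Phi_apply (a : AS S E) : Phi E σ a = σ (LocField.mk S 𝔪 a) := rfl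

lemma mk_tmul' (x : E) (y : QS S) :
    LocField.mk S 𝔪 (x ⊗ₜ[ℚ] y) = toLoc S 𝔪 x * LocField.ofQS S 𝔪 y := by
  have : (x ⊗ₜ[ℚ] y : AS S E) = asDiag S E x * asIncl S E y := by
    rw [asDiag_apply]
    change _ = (x ⊗ₜ[ℚ] (1 : QS S)) * ((1 : E) ⊗ₜ[ℚ] y)
    rw [Algebra.TensorProduct.tmul_mul_tmul, mul_one, one_mul]
  rw [this, map_mul]
  rfl

lemma Phi_tmul (x : E) (y : QS S) :
    Phi E σ (x ⊗ₜ[ℚ] y) = σ (toLoc S 𝔪 x) * σ (LocField.ofQS S 𝔪 y) := by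
  rw [Phi_apply, mk_tmul', map_mul]

lemma Phi_eq_zero_iff (a : AS S E) : Phi E σ a = 0 ↔ a ∈ 𝔪.asIdeal := by
  rw [Phi_apply, ← LocField.mk_eq_zero_iff]
  exact map_eq_zero_iff σ σ.injective

variable {σ}
variable (hσ₁ : ∀ x : E, σ (toLoc S 𝔪 x) = padicEmbedding Q (g⁻¹ (x : Qb)))
variable (hσ₂ : ∀ y : QS S, ∃ z : ℚ_[Q],
  σ (LocField.ofQS S 𝔪 y) = algebraMap ℚ_[Q] (PadicAlgCl Q) z)

include hσ₁ hσ₂ in
/-- `Φ ∘ (dOf τ ⊗ 1) = τ ∘ Φ`. -/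
lemma Phi_asAut (τ : ↥(Rec.locSub Q g U)) (a : AS S E) :
    Phi E σ (asAut S ↥(lvlGal U E) E (dOf U E Q g τ) a) =
      (τ : PadicAlgCl Q ≃ₐ[ℚ_[Q]] PadicAlgCl Q) (Phi E σ a) := by
  induction a using TensorProduct.induction_on with
  | zero => simp
  | tmul x y =>
    obtain ⟨z, hz⟩ := hσ₂ y
    rw [asAut_tmul, Phi_tmul, Phi_tmul, hσ₁, hσ₁, map_mul, padicEmbedding_dOf, hz,
      AlgEquiv.commutes]
  | add a b ha hb => rw [map_add, map_add, ha, hb, map_add, map_add]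

include hσ₁ hσ₂ in
lemma dOf_mem_decomp (τ : ↥(Rec.locSub Q g U)) :
    dOf U E Q g τ ∈ decomp S ↥(lvlGal U E) 𝔪 := by
  rw [mem_decomp_iff]
  refine MaximalSpectrum.ext (Ideal.ext fun a => ?_)
  rw [mem_sPlaceSMul_iff, ← dOf_inv, ← Phi_eq_zero_iff E σ, ← Phi_eq_zero_iff E σ,
    Phi_asAut U E g hσ₁ hσ₂]
  exact map_eq_zero_iff _ (AlgEquiv.injective _)

/-- The homomorphism `θ₀ : V → D_𝔪`, `τ ↦ (g · loc τ · g⁻¹)|_E`. -/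
def theta0 : ↥(Rec.locSub Q g U) →* ↥(decomp S ↥(lvlGal U E) 𝔪) where
  toFun τ := ⟨dOf U E Q g τ, dOf_mem_decomp U E g hσ₁ hσ₂ τ⟩
  map_one' := Subtype.ext (dOf_one U E Q g)
  map_mul' τ τ' := Subtype.ext (dOf_mul U E Q g τ τ')

lemma theta0_coe (τ : ↥(Rec.locSub Q g U)) :
    ((theta0 U E g hσ₁ hσ₂ τ : ↥(decomp S ↥(lvlGal U E) 𝔪)) : ↥(lvlGal U E)) =
      dOf U E Q g τ := rfl

/-- `σ ∘ locAut (θ₀ τ) = τ ∘ σ`. -/
lemma sigma_locAut (τ : ↥(Rec.locSub Q g U)) (z : LocField S 𝔪) :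
    σ (locAut S ↥(lvlGal U E) 𝔪 (theta0 U E g hσ₁ hσ₂ τ) z) =
      (τ : PadicAlgCl Q ≃ₐ[ℚ_[Q]] PadicAlgCl Q) (σ z) := by
  obtain ⟨a, rfl⟩ := LocField.mk_surjective S 𝔪 z
  rw [locAut_mk]
  exact Phi_asAut U E g hσ₁ hσ₂ τ a

end Fermat.Agent.S55.G.HP.D4bH717
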