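import Fermat.Agent.S55.G.HP.D4bH717.Basic
import Fermat.Agent.S55.G.Rec.Loc.DownH363

/-!
# S55 / layer G / adapter HP / leaf HP-D4b (helper717), part 2: the local field `σ(E_𝔪) ⊂ ℚ̄_Q`

`Eloc0 = σ(E_𝔪)` as an intermediate field of `ℚ̄_Q / ℚ_Q`: finite, normal, and
`Gal(ℚ̄_Q / σ(E_𝔪)) ≤ V = locSub Q g U` when `Gal(ℚ̄/E) ≤ U`.
-/

set_option autoImplicit false
set_option linter.unusedSectionVars false
set_option linter.style.haveILetI false

open scoped NumberField TensorProduct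
open IsDedekindDomain CategoryTheory groupCohomology

noncomputable section

namespace Fermat.Agent.S55.G.HP.D4bH717

open Fermat.Agent.S55.G Fermat.Agent.S55.G.HP

local notation "Qb" => AlgebraicClosure ℚ
local notation "GQ" => (AlgebraicClosure ℚ ≃ₐ[ℚ] AlgebraicClosure ℚ)

variable (U : Subgroup GQ) (E : IntermediateField ℚ Qb) [FiniteDimensional ℚ E] [Normal ℚ E]
variable {S : Finset Nat.Primes} {𝔪 : SPlace S E}
variable {Q : ℕ} [Fact Q.Prime] (g : GQ)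
variable {σ : LocField S 𝔪 →+* PadicAlgCl Q}
variable (hσ₁ : ∀ x : E, σ (toLoc S 𝔪 x) = padicEmbedding Q (g⁻¹ (x : Qb)))
variable (hσ₂ : ∀ y : QS S, ∃ z : ℚ_[Q],
  σ (LocField.ofQS S 𝔪 y) = algebraMap ℚ_[Q] (PadicAlgCl Q) z)
variable (hσ₃ : ∀ z : ℚ_[Q], ∃ w : LocField S 𝔪, σ w = algebraMap ℚ_[Q] (PadicAlgCl Q) z)

/-- The local field `σ(E_𝔪)` as an intermediate field of `ℚ̄_Q / ℚ_Q`. -/
def Eloc0 : IntermediateField ℚ_[Q] (PadicAlgCl Q) :=
  σ.fieldRange.toIntermediateField (fun z => by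
    obtain ⟨w, hw⟩ := hσ₃ z
    exact ⟨w, hw⟩)

lemma mem_Eloc0 (x : PadicAlgCl Q) : x ∈ Eloc0 E hσ₃ ↔ ∃ w : LocField S 𝔪, σ w = x := Iff.rfl

lemma sigma_mem_Eloc0 (w : LocField S 𝔪) : σ w ∈ Eloc0 E hσ₃ := ⟨w, rfl⟩

include hσ₁ hσ₂ in
/-- Every element of `σ(E_𝔪)` is a `ℚ_Q`-linear combination of the `ι (g⁻¹ b)`, `b ∈ E`. -/
lemma sigma_mem_span (w : LocField S 𝔪) :
    σ w ∈ Submodule.span ℚ_[Q]
      (Set.range fun i => padicEmbedding Q (g⁻¹ ((Module.finBasis ℚ E i : E) : Qb))) := by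
  set b := Module.finBasis ℚ E
  set T := (Set.range fun i => padicEmbedding Q (g⁻¹ ((b i : E) : Qb)))
  have hE : ∀ x : E, padicEmbedding Q (g⁻¹ (x : Qb)) ∈ Submodule.span ℚ_[Q] T := by
    intro x
    have hx : x = ∑ i, b.repr x i • b i := (b.sum_repr x).symm
    have hsm : ∀ (c : ℚ) (y : E), padicEmbedding Q (g⁻¹ (((c • y : E)) : Qb)) =
        (algebraMap ℚ ℚ_[Q] c) • padicEmbedding Q (g⁻¹ (y : Qb)) := by
      intro c y
      have h1 : ((c • y : E) : Qb) = algebraMap ℚ Qb c * (y : Qb) := by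
        rw [Algebra.smul_def]
        rfl
      rw [h1, map_mul, map_mul, AlgEquiv.commutes, AlgHom.commutes, Algebra.smul_def,
        ← IsScalarTower.algebraMap_apply]
    have h2 : padicEmbedding Q (g⁻¹ (x : Qb)) =
        ∑ i, (algebraMap ℚ ℚ_[Q] (b.repr x i)) • padicEmbedding Q (g⁻¹ ((b i : E) : Qb)) := by
      conv_lhs => rw [hx]
      rw [IntermediateField.coe_sum, map_sum, map_sum]
      exact Finset.sum_congr rfl fun i _ => hsm _ _
    rw [h2]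
    exact Submodule.sum_mem _ fun i _ =>
      Submodule.smul_mem _ _ (Submodule.subset_span ⟨i, rfl⟩)
  obtain ⟨a, rfl⟩ := LocField.mk_surjective S 𝔪 w
  induction a using TensorProduct.induction_on with
  | zero => simp
  | tmul x y =>
    obtain ⟨z, hz⟩ := hσ₂ y
    rw [mk_tmul', map_mul, hσ₁, hz, mul_comm, ← Algebra.smul_def]
    exact Submodule.smul_mem _ _ (hE x)
  | add a b ha hb =>
    rw [map_add, map_add]
    exact Submodule.add_mem _ ha hb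

include hσ₁ hσ₂ in
/-- `σ(E_𝔪)` is finite over `ℚ_Q`. -/
lemma finiteDimensional_Eloc0 : FiniteDimensional ℚ_[Q] (Eloc0 E hσ₃) := by
  have hle : (Eloc0 E hσ₃).toSubalgebra.toSubmodule ≤ Submodule.span ℚ_[Q]
      (Set.range fun i => padicEmbedding Q (g⁻¹ ((Module.finBasis ℚ E i : E) : Qb))) := by
    rintro x ⟨w, rfl⟩
    exact sigma_mem_span E g hσ₁ hσ₂ w
  haveI : Module.Finite ℚ_[Q] (Submodule.span ℚ_[Q]
      (Set.range fun i => padicEmbedding Q (g⁻¹ ((Module.finBasis ℚ E i : E) : Qb)))) :=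
    Module.Finite.span_of_finite ℚ_[Q] (Set.finite_range _)
  exact Module.Finite.of_injective (Submodule.inclusion hle) (Submodule.inclusion_injective hle)

include hσ₁ hσ₂ in
/-- `σ(E_𝔪)` is stable under `Gal(ℚ̄_Q/ℚ_Q)` (because `E/ℚ` is normal). -/
lemma map_mem_Eloc0 (τ : PadicAlgCl Q ≃ₐ[ℚ_[Q]] PadicAlgCl Q) {x : PadicAlgCl Q}
    (hx : x ∈ Eloc0 E hσ₃) : τ x ∈ Eloc0 E hσ₃ := by
  obtain ⟨w, rfl⟩ := hx
  obtain ⟨a, rfl⟩ := LocField.mk_surjective S 𝔪 w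
  induction a using TensorProduct.induction_on with
  | zero => simp
  | tmul x y =>
    obtain ⟨z, hz⟩ := hσ₂ y
    rw [mk_tmul', map_mul, map_mul, hσ₁, hz, AlgEquiv.commutes,
      ← padicEmbedding_localGaloisToGlobal]
    refine (Eloc0 E hσ₃).mul_mem ?_ ((Eloc0 E hσ₃).algebraMap_mem z)
    -- `loc τ (g⁻¹ x) = g⁻¹ x'` with `x' = (g * loc τ * g⁻¹) x ∈ E`
    set u : GQ := g * localGaloisToGlobal Q τ * g⁻¹ with hu
    have hx' : (u (x : Qb)) = ((AlgEquiv.restrictNormal u E x : E) : Qb) :=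
      (AlgEquiv.restrictNormal_commutes u E x).symm
    have h3 : localGaloisToGlobal Q τ (g⁻¹ (x : Qb)) =
        g⁻¹ ((AlgEquiv.restrictNormal u E x : E) : Qb) := by
      rw [← hx', hu]
      simp [AlgEquiv.mul_apply]
    rw [h3, ← hσ₁]
    exact sigma_mem_Eloc0 E hσ₃ _
  | add a b ha hb =>
    rw [map_add, map_add, map_add]
    exact (Eloc0 E hσ₃).add_mem ha hb

include hσ₁ hσ₂ in
lemma normal_Eloc0 : Normal ℚ_[Q] (Eloc0 E hσ₃) := by
  rw [IntermediateField.normal_iff_forall_map_le']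
  rintro τ _ ⟨x, hx, rfl⟩
  exact map_mem_Eloc0 E g hσ₁ hσ₂ hσ₃ τ hx

include hσ₁ in
/-- If `τ` fixes `σ(E_𝔪)` then `g · loc τ · g⁻¹` fixes `E`. -/
lemma conj_mem_fixingSubgroup {τ : PadicAlgCl Q ≃ₐ[ℚ_[Q]] PadicAlgCl Q}
    (hτ : τ ∈ (Eloc0 E hσ₃).fixingSubgroup) :
    g * localGaloisToGlobal Q τ * g⁻¹ ∈ E.fixingSubgroup := by
  rw [IntermediateField.mem_fixingSubgroup_iff] at hτ ⊢
  intro x hx
  have h1 := hτ _ (sigma_mem_Eloc0 E hσ₃ (toLoc S 𝔪 ⟨x, hx⟩))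
  rw [hσ₁, ← padicEmbedding_localGaloisToGlobal] at h1
  have h2 : localGaloisToGlobal Q τ (g⁻¹ x) = g⁻¹ x := (padicEmbedding Q).injective h1
  show g (localGaloisToGlobal Q τ (g⁻¹ x)) = x
  rw [h2]
  exact AlgEquiv.apply_symm_apply g x

include hσ₁ in
/-- `Gal(ℚ̄_Q / σ(E_𝔪)) ≤ V` when `Gal(ℚ̄/E) ≤ U`. -/
lemma fixingSubgroup_le_locSub (hEU : E.fixingSubgroup ≤ U) :
    (Eloc0 E hσ₃).fixingSubgroup ≤ Rec.locSub Q g U := fun _ hτ =>
  Rec.mem_locSub.2 (hEU (conj_mem_fixingSubgroup E g hσ₁ hσ₃ hτ))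

include hσ₁ hσ₂ hσ₃ in
lemma isOpenL_locSub (hEU : E.fixingSubgroup ≤ U) : Rec.IsOpenL Q (Rec.locSub Q g U) :=
  ⟨Eloc0 E hσ₃, finiteDimensional_Eloc0 E g hσ₁ hσ₂ hσ₃,
    fixingSubgroup_le_locSub U E g hσ₁ hσ₃ hEU⟩

include hσ₁ in
/-- The fixed field of `V` is contained in `σ(E_𝔪)`. -/
lemma fixedFld_le_Eloc0 (hEU : E.fixingSubgroup ≤ U) :
    Rec.Loc.fixedFld Q (Rec.locSub Q g U) ≤ Eloc0 E hσ₃ := by
  have h1 : IntermediateField.fixedField (Rec.locSub Q g U) ≤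
      IntermediateField.fixedField (Eloc0 E hσ₃).fixingSubgroup :=
    IntermediateField.fixedField_antitone (fixingSubgroup_le_locSub U E g hσ₁ hσ₃ hEU)
  rwa [InfiniteGalois.fixedField_fixingSubgroup] at h1

end Fermat.Agent.S55.G.HP.D4bH717
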