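import Fermat.Agent.S55.G.HP.D4bH717.Level
import Fermat.Agent.S55.G.Rec.Loc.OpenH478

/-!
# S55 / layer G / adapter HP / leaf HP-D4b (helper717), part 4:
the isomorphism `Gal(σ(E_𝔪)/K_V) ≃ D_𝔪`
-/

set_option autoImplicit false
set_option linter.unusedSectionVars false
set_option linter.style.haveILetI false

open scoped NumberField TensorProduct
open IsDedekindDomain CategoryTheory groupCohomology

noncomputable section

namespace Fermat.Agent.S55.G.HP.D4bH717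

open Fermat.Agent.S55.G Fermat.Agent.S55.G.HP

local notation "Qb" => AlgebraicClosure ℚ
local notation "GQ" => (AlgebraicClosure ℚ ≃ₐ[ℚ] AlgebraicClosure ℚ)

/-- The hypotheses of HP-D4b on the embedding `σ : E_𝔪 → ℚ̄_Q`, bundled. -/
structure Emb (U : Subgroup GQ) (E : IntermediateField ℚ Qb) [FiniteDimensional ℚ E]
    [Normal ℚ E] {S : Finset Nat.Primes} {𝔪 : SPlace S E} {Q : ℕ} [Fact Q.Prime] (g : GQ)
    (σ : LocField S 𝔪 →+* PadicAlgCl Q) : Prop where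
  h1 : ∀ x : E, σ (toLoc S 𝔪 x) = padicEmbedding Q (g⁻¹ (x : Qb))
  h2 : ∀ y : QS S, ∃ z : ℚ_[Q], σ (LocField.ofQS S 𝔪 y) = algebraMap ℚ_[Q] (PadicAlgCl Q) z
  h3' : ∀ z : ℚ_[Q], ∃ y : QS S,
    σ (LocField.ofQS S 𝔪 y) = algebraMap ℚ_[Q] (PadicAlgCl Q) z
  hEU : E.fixingSubgroup ≤ U

variable {U : Subgroup GQ} {E : IntermediateField ℚ Qb} [FiniteDimensional ℚ E] [Normal ℚ E]
variable {S : Finset Nat.Primes} {𝔪 : SPlace S E}
variable {Q : ℕ} [Fact Q.Prime] {g : GQ}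
variable {σ : LocField S 𝔪 →+* PadicAlgCl Q}

lemma Emb.h3 (h : Emb U E g σ) (z : ℚ_[Q]) :
    ∃ w : LocField S 𝔪, σ w = algebraMap ℚ_[Q] (PadicAlgCl Q) z := by
  obtain ⟨y, hy⟩ := h.h3' z
  exact ⟨_, hy⟩

/-- The group `V = locSub Q g U`. -/
abbrev VV (_ : Emb U E g σ) : Subgroup (PadicAlgCl Q ≃ₐ[ℚ_[Q]] PadicAlgCl Q) := Rec.locSub Q g U

/-- The level `σ(E_𝔪)` over `K_V`. -/
def EL (h : Emb U E g σ) : IntermediateField (Rec.Loc.fixedFld Q (VV h)) (PadicAlgCl Q) :=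
  Eloc U E g h.h1 h.h3 h.hEU

instance instFiniteDimensionalEL (h : Emb U E g σ) :
    FiniteDimensional (Rec.Loc.fixedFld Q (VV h)) (EL h) :=
  finiteDimensional_Eloc U E g h.h1 h.h2 h.h3 h.hEU

instance instNormalEL (h : Emb U E g σ) : Normal (Rec.Loc.fixedFld Q (VV h)) (EL h) :=
  normal_Eloc U E g h.h1 h.h2 h.h3 h.hEU

instance instIsGaloisEL (h : Emb U E g σ) : IsGalois (Rec.Loc.fixedFld Q (VV h)) (EL h) :=
  isGalois_Eloc U E g h.h1 h.h2 h.h3 h.hEU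

lemma isOpenL_VV (h : Emb U E g σ) : Rec.IsOpenL Q (VV h) :=
  isOpenL_locSub U E g h.h1 h.h2 h.h3 h.hEU

lemma fixingSubgroup_fixedFld (h : Emb U E g σ) :
    (Rec.Loc.fixedFld Q (VV h)).fixingSubgroup = VV h :=
  (Rec.Loc.H478.openSpec Q (VV h) (isOpenL_VV h)).2

/-- `σ` as a map into the level. -/
def sigmaEL (h : Emb U E g σ) : LocField S 𝔪 →+* EL h :=
  σ.codRestrict (EL h).toSubfield.toSubring (fun w => sigma_mem_Eloc U E g h.h1 h.h3 h.hEU w)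

lemma sigmaEL_coe (h : Emb U E g σ) (w : LocField S 𝔪) :
    ((sigmaEL h w : EL h) : PadicAlgCl Q) = σ w := rfl

lemma sigmaEL_bijective (h : Emb U E g σ) : Function.Bijective (sigmaEL h) := by
  refine ⟨(sigmaEL h).injective, ?_⟩
  rintro ⟨x, w, rfl⟩
  exact ⟨w, rfl⟩

/-- The restriction `V → Gal(σ(E_𝔪)/K_V)`. -/
abbrev resEL (h : Emb U E g σ) : ↥(VV h) →* (EL h ≃ₐ[Rec.Loc.fixedFld Q (VV h)] EL h) :=
  Rec.Loc.resHom Q (VV h) (EL h)

lemma resEL_surjective (h : Emb U E g σ) : Function.Surjective (resEL h) :=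
  Rec.Loc.H363.resHom_surjective Q (VV h) (fixingSubgroup_fixedFld h) (EL h)

/-- `θ₀ : V → D_𝔪`. -/
abbrev th0 (h : Emb U E g σ) : ↥(VV h) →* ↥(decomp S ↥(lvlGal U E) 𝔪) :=
  theta0 U E g h.h1 h.h2

/-- Equivariance of `σ`: `σ (θ₀ τ · z) = (τ|_{σ(E_𝔪)}) (σ z)`. -/
lemma sigmaEL_locAut (h : Emb U E g σ) (τ : ↥(VV h)) (z : LocField S 𝔪) :
    sigmaEL h (locAut S ↥(lvlGal U E) 𝔪 (th0 h τ) z) = resEL h τ (sigmaEL h z) := by
  apply Subtype.ext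
  rw [Rec.Loc.resHom_apply_coe]
  exact sigma_locAut U E g h.h1 h.h2 τ z

/-- `θ₀ τ = 1` iff `τ` is trivial on `σ(E_𝔪)`. -/
lemma th0_eq_one_iff (h : Emb U E g σ) (τ : ↥(VV h)) : th0 h τ = 1 ↔ resEL h τ = 1 := by
  constructor
  · intro h1
    ext x
    obtain ⟨z, rfl⟩ := (sigmaEL_bijective h).2 x
    rw [← sigmaEL_locAut, h1, map_one]
    rfl
  · intro h1
    have h2 : ∀ z : LocField S 𝔪, locAut S ↥(lvlGal U E) 𝔪 (th0 h τ) z = z := by
      intro z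
      apply (sigmaEL_bijective h).1
      rw [sigmaEL_locAut, h1]
      rfl
    apply Subtype.ext
    apply Subtype.ext
    ext x
    have h3 := h2 (toLoc S 𝔪 x)
    rw [locAut_toLoc] at h3
    exact congrArg (fun y : E => (y : Qb)) ((toLoc S 𝔪).injective h3)

lemma ker_th0 (h : Emb U E g σ) : (th0 h).ker = (resEL h).ker := by
  ext τ
  rw [MonoidHom.mem_ker, MonoidHom.mem_ker]
  exact th0_eq_one_iff h τ

/-! ### Surjectivity of `θ₀` -/

/-- `σ` as a ring isomorphism onto `σ(E_𝔪)` (over `ℚ_Q`). -/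
def sig0 (h : Emb U E g σ) : LocField S 𝔪 ≃+* ↥(Eloc0 E h.h3) :=
  RingEquiv.ofBijective
    (σ.codRestrict (Eloc0 E h.h3).toSubfield.toSubring (fun w => sigma_mem_Eloc0 E h.h3 w))
    ⟨RingHom.injective _, by
      rintro ⟨x, w, rfl⟩
      exact ⟨w, rfl⟩⟩

lemma sig0_coe (h : Emb U E g σ) (w : LocField S 𝔪) :
    ((sig0 h w : ↥(Eloc0 E h.h3)) : PadicAlgCl Q) = σ w := rfl

lemma locAut_ofQS (d : ↥(decomp S ↥(lvlGal U E) 𝔪)) (y : QS S) :
    locAut S ↥(lvlGal U E) 𝔪 d (LocField.ofQS S 𝔪 y) = LocField.ofQS S 𝔪 y := by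
  change locAut S ↥(lvlGal U E) 𝔪 d (LocField.mk S 𝔪 (asIncl S E y)) = _
  rw [locAut_mk, asAut_asIncl]
  rfl

/-- The automorphism of `σ(E_𝔪)/ℚ_Q` induced by `d ∈ D_𝔪`. -/
def autOf (h : Emb U E g σ) (d : ↥(decomp S ↥(lvlGal U E) 𝔪)) :
    ↥(Eloc0 E h.h3) ≃ₐ[ℚ_[Q]] ↥(Eloc0 E h.h3) :=
  AlgEquiv.ofRingEquiv (f := (sig0 h).symm.trans ((locAut S ↥(lvlGal U E) 𝔪 d).trans (sig0 h)))
    (by
      intro z
      obtain ⟨y, hy⟩ := h.h3' z
      have h1 : algebraMap ℚ_[Q] ↥(Eloc0 E h.h3) z = sig0 h (LocField.ofQS S 𝔪 y) :=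
        Subtype.ext hy.symm
      rw [h1]
      simp only [RingEquiv.trans_apply, RingEquiv.symm_apply_apply]
      rw [locAut_ofQS])

lemma autOf_sig0 (h : Emb U E g σ) (d : ↥(decomp S ↥(lvlGal U E) 𝔪)) (w : LocField S 𝔪) :
    autOf h d (sig0 h w) = sig0 h (locAut S ↥(lvlGal U E) 𝔪 d w) := by
  change (sig0 h) ((locAut S ↥(lvlGal U E) 𝔪 d) ((sig0 h).symm (sig0 h w))) = _
  rw [RingEquiv.symm_apply_apply]

/-- A lift of `autOf h d` to `Gal(ℚ̄_Q/ℚ_Q)`. -/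
def liftOf (h : Emb U E g σ) (d : ↥(decomp S ↥(lvlGal U E) 𝔪)) :
    PadicAlgCl Q ≃ₐ[ℚ_[Q]] PadicAlgCl Q :=
  (autOf h d).liftNormal (PadicAlgCl Q)

lemma liftOf_sigma (h : Emb U E g σ) (d : ↥(decomp S ↥(lvlGal U E) 𝔪)) (w : LocField S 𝔪) :
    liftOf h d (σ w) = σ (locAut S ↥(lvlGal U E) 𝔪 d w) := by
  have h1 := (autOf h d).liftNormal_commutes (PadicAlgCl Q) (sig0 h w)
  rw [autOf_sig0] at h1
  exact h1

/-- `g · loc (liftOf d) · g⁻¹` acts on `E` as `d`. -/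
lemma conj_liftOf_apply (h : Emb U E g σ) (d : ↥(decomp S ↥(lvlGal U E) 𝔪)) (x : E) :
    (g * localGaloisToGlobal Q (liftOf h d) * g⁻¹) (x : Qb) =
      (((d : ↥(lvlGal U E)) • x : E) : Qb) := by
  have h1 : padicEmbedding Q (g⁻¹ ((g * localGaloisToGlobal Q (liftOf h d) * g⁻¹) (x : Qb))) =
      padicEmbedding Q (g⁻¹ ((((d : ↥(lvlGal U E)) • x : E) : Qb))) := by
    have e1 : g⁻¹ ((g * localGaloisToGlobal Q (liftOf h d) * g⁻¹) (x : Qb)) =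
        localGaloisToGlobal Q (liftOf h d) (g⁻¹ (x : Qb)) := by
      simp [AlgEquiv.mul_apply]
    rw [e1, padicEmbedding_localGaloisToGlobal, ← h.h1 x, liftOf_sigma h d, locAut_toLoc, h.h1]
  exact (g⁻¹ : GQ).injective ((padicEmbedding Q).injective h1)

lemma conj_liftOf_mem (h : Emb U E g σ) (d : ↥(decomp S ↥(lvlGal U E) 𝔪)) :
    g * localGaloisToGlobal Q (liftOf h d) * g⁻¹ ∈ U := by
  obtain ⟨u₀, hu₀, hu₀d⟩ := (d : ↥(lvlGal U E)).2
  set u : GQ := g * localGaloisToGlobal Q (liftOf h d) * g⁻¹ with hu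
  have hfix : u₀⁻¹ * u ∈ E.fixingSubgroup := by
    rw [IntermediateField.mem_fixingSubgroup_iff]
    intro x hx
    have h1 : u x = u₀ x := by
      have h2 := conj_liftOf_apply h d ⟨x, hx⟩
      rw [h2]
      have h3 : ((d : ↥(lvlGal U E)) • (⟨x, hx⟩ : E) : E) =
          (AlgEquiv.restrictNormalHom E u₀) ⟨x, hx⟩ := by
        rw [hu₀d]
        rfl
      rw [h3]
      exact AlgEquiv.restrictNormal_commutes u₀ E ⟨x, hx⟩
    show u₀⁻¹ (u x) = x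
    rw [h1]
    exact AlgEquiv.symm_apply_apply u₀ x
  have : u = u₀ * (u₀⁻¹ * u) := by group
  rw [this]
  exact U.mul_mem hu₀ (h.hEU hfix)

/-- **Surjectivity of `θ₀ : V → D_𝔪`.** -/
theorem th0_surjective (h : Emb U E g σ) : Function.Surjective (th0 h) := by
  intro d
  refine ⟨⟨liftOf h d, Rec.mem_locSub.2 (conj_liftOf_mem h d)⟩, ?_⟩
  apply Subtype.ext
  apply Subtype.ext
  ext x
  have h1 : (((dOf U E Q g ⟨liftOf h d, Rec.mem_locSub.2 (conj_liftOf_mem h d)⟩) • x : E) : Qb) =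
      (g * localGaloisToGlobal Q (liftOf h d) * g⁻¹) (x : Qb) := lvlHom_apply_coe U E _ x
  rw [conj_liftOf_apply] at h1
  exact h1

end Fermat.Agent.S55.G.HP.D4bH717
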