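import Fermat.Agent.S55.G.HP.D4bH717.Field

/-!
# S55 / layer G / adapter HP / leaf HP-D4b (helper717), part 3: `σ(E_𝔪)` as a finite Galois level
of `V = locSub Q g U`, and the isomorphism `Gal(σ(E_𝔪)/K_V) ≃ D_𝔪`
-/

set_option autoImplicit false
set_option linter.unusedSectionVars false
set_option linter.style.haveILetI false

open scoped NumberField TensorProduct
open IsDedekindDomain CategoryTheory groupCohomology

noncomputable section

namespace Fermat.Agent.S55.G.HP.D4bH717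

open Fermat.Agent.S55.G Fermat.Agent.S55.G.HP

local notation "Qb" => AlgebraicClosure ℚ
local notation "GQ" => (AlgebraicClosure ℚ ≃ₐ[ℚ] AlgebraicClosure ℚ)

variable (U : Subgroup GQ) (E : IntermediateField ℚ Qb) [FiniteDimensional ℚ E] [Normal ℚ E]
variable {S : Finset Nat.Primes} {𝔪 : SPlace S E}
variable {Q : ℕ} [Fact Q.Prime] (g : GQ)
variable {σ : LocField S 𝔪 →+* PadicAlgCl Q}
variable (hσ₁ : ∀ x : E, σ (toLoc S 𝔪 x) = padicEmbedding Q (g⁻¹ (x : Qb)))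
variable (hσ₂ : ∀ y : QS S, ∃ z : ℚ_[Q],
  σ (LocField.ofQS S 𝔪 y) = algebraMap ℚ_[Q] (PadicAlgCl Q) z)
variable (hσ₃ : ∀ z : ℚ_[Q], ∃ w : LocField S 𝔪, σ w = algebraMap ℚ_[Q] (PadicAlgCl Q) z)
variable (hEU : E.fixingSubgroup ≤ U)

/-- `σ(E_𝔪)` as an intermediate field of `ℚ̄_Q / K_V`. -/
def Eloc : IntermediateField (Rec.Loc.fixedFld Q (Rec.locSub Q g U)) (PadicAlgCl Q) :=
  IntermediateField.extendScalars (fixedFld_le_Eloc0 U E g hσ₁ hσ₃ hEU)

lemma mem_Eloc (x : PadicAlgCl Q) :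
    x ∈ Eloc U E g hσ₁ hσ₃ hEU ↔ ∃ w : LocField S 𝔪, σ w = x := Iff.rfl

lemma sigma_mem_Eloc (w : LocField S 𝔪) : σ w ∈ Eloc U E g hσ₁ hσ₃ hEU := ⟨w, rfl⟩

include hσ₂ in
lemma finiteDimensional_Eloc :
    FiniteDimensional (Rec.Loc.fixedFld Q (Rec.locSub Q g U)) (Eloc U E g hσ₁ hσ₃ hEU) := by
  have hle : (Eloc U E g hσ₁ hσ₃ hEU).toSubalgebra.toSubmodule ≤
      Submodule.span (Rec.Loc.fixedFld Q (Rec.locSub Q g U))
        (Set.range fun i => padicEmbedding Q (g⁻¹ ((Module.finBasis ℚ E i : E) : Qb))) := by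
    rintro x ⟨w, rfl⟩
    exact Submodule.span_le_restrictScalars ℚ_[Q] (Rec.Loc.fixedFld Q (Rec.locSub Q g U)) _
      (sigma_mem_span E g hσ₁ hσ₂ w)
  haveI : Module.Finite (Rec.Loc.fixedFld Q (Rec.locSub Q g U))
      (Submodule.span (Rec.Loc.fixedFld Q (Rec.locSub Q g U))
        (Set.range fun i => padicEmbedding Q (g⁻¹ ((Module.finBasis ℚ E i : E) : Qb)))) :=
    Module.Finite.span_of_finite _ (Set.finite_range _)
  exact Module.Finite.of_injective (Submodule.inclusion hle) (Submodule.inclusion_injective hle)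

include hσ₂ in
lemma normal_Eloc :
    Normal (Rec.Loc.fixedFld Q (Rec.locSub Q g U)) (Eloc U E g hσ₁ hσ₃ hEU) := by
  rw [IntermediateField.normal_iff_forall_map_le']
  rintro τ _ ⟨x, hx, rfl⟩
  exact map_mem_Eloc0 E g hσ₁ hσ₂ hσ₃ (τ.restrictScalars ℚ_[Q]) hx

include hσ₂ in
lemma isGalois_Eloc :
    IsGalois (Rec.Loc.fixedFld Q (Rec.locSub Q g U)) (Eloc U E g hσ₁ hσ₃ hEU) :=
  haveI := normal_Eloc U E g hσ₁ hσ₂ hσ₃ hEU
  ⟨⟩

end Fermat.Agent.S55.G.HP.D4bH717
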