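import Fermat.Agent.S55.G.HP.D4bH717.Transfer

/-!
# S55 / layer G / adapter HP / leaf HP-D4b (helper717): `localTransfer : LocalTransferSpec`

Let `𝔪` be the place of `E ⊗ ℚ_S` induced by `ι_q ∘ g⁻¹` (embedding `σ : E_𝔪 → ℚ̄_q`) and let the
level cocycle `c` on `U ⊇ Gal(ℚ̄/E)` be the inflation of the finite-level cocycle `f`.  If the
localisation of `[c]` at `(q, g)` vanishes in `lBr q (locSub q g U)`, then the localisation of
`[f]` at `𝔪` vanishes in `H²(D_𝔪, E_𝔪ˣ)`.

Proof: `θ₀ : V = locSub q g U → D_𝔪`, `τ ↦ (g · loc τ · g⁻¹)|_E`, is ONTO (`th0_surjective`) with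
the same kernel as the restriction `V → Gal(σ(E_𝔪)/K_V)` (`ker_th0`), whence
`ψ : Gal(σ(E_𝔪)/K_V) ≃* D_𝔪`; `σ` is `ψ`-equivariant; the localised level cocycle is the absolute
inflation of `fLoc f = σ ∘ f|_{D_𝔪} ∘ ψ`; `Rec.Loc.H363.down` (Hilbert 90) gives `[fLoc f] = 0`,
and the coboundary is transported back along `σ` and `ψ`.
-/

set_option autoImplicit false
set_option linter.unusedSectionVars false
set_option linter.style.haveILetI false

open scoped NumberField TensorProduct
open IsDedekindDomain CategoryTheory groupCohomology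

noncomputable section

namespace Fermat.Agent.S55.G.HP.D4bH717

open Fermat.Agent.S55.G Fermat.Agent.S55.G.HP

local notation "Qb" => AlgebraicClosure ℚ
local notation "GQ" => (AlgebraicClosure ℚ ≃ₐ[ℚ] AlgebraicClosure ℚ)

/-- The element of `ℚ_S` with `q`-component `z` and the other components `0`. -/
def singleQS (S : Finset Nat.Primes) (q : S) (z : Qq q.1) : QS S :=
  fun r => if hr : r = q then hr ▸ z else 0

lemma singleQS_same (S : Finset Nat.Primes) (q : S) (z : Qq q.1) : singleQS S q z q = z := by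
  unfold singleQS
  rw [dif_pos rfl]

/-- **HP-D4b** (`LocalTransferSpec`). -/
theorem localTransfer : LocalTransferSpec := by
  intro U E _ _ hEU f c hfc S 𝔪 q g σ hσ₁ hσ₂ hloc
  haveI : Fact ((q.1 : ℕ).Prime) := ⟨q.1.2⟩
  have h : Emb U E g σ :=
    { h1 := hσ₁
      h2 := fun y => ⟨y q, hσ₂ y⟩
      h3' := fun z => ⟨singleQS S q z, by rw [hσ₂, singleQS_same]⟩
      hEU := hEU }
  exact localTransfer_core h f c hfc hloc

end Fermat.Agent.S55.G.HP.D4bH717
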