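import Fermat.Agent.S55.G.HP.D4bH717.Iso

/-!
# S55 / layer G / adapter HP / leaf HP-D4b (helper717), part 5:
transfer of the local class along `σ` and `ψ : Gal(σ(E_𝔪)/K_V) ≃ D_𝔪`
-/

set_option autoImplicit false
set_option linter.unusedSectionVars false
set_option linter.style.haveILetI false

open scoped NumberField TensorProduct
open IsDedekindDomain CategoryTheory groupCohomology

noncomputable section

namespace Fermat.Agent.S55.G.HP.D4bH717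

open Fermat.Agent.S55.G Fermat.Agent.S55.G.HP

local notation "Qb" => AlgebraicClosure ℚ
local notation "GQ" => (AlgebraicClosure ℚ ≃ₐ[ℚ] AlgebraicClosure ℚ)

variable {U : Subgroup GQ} {E : IntermediateField ℚ Qb} [FiniteDimensional ℚ E] [Normal ℚ E]
variable {S : Finset Nat.Primes} {𝔪 : SPlace S E}
variable {Q : ℕ} [Fact Q.Prime] {g : GQ}
variable {σ : LocField S 𝔪 →+* PadicAlgCl Q}

/-- The local Galois group `Gal(σ(E_𝔪)/K_V)`. -/
abbrev GalEL (h : Emb U E g σ) : Type := EL h ≃ₐ[Rec.Loc.fixedFld Q (VV h)] EL h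

/-- `ψ : Gal(σ(E_𝔪)/K_V) ≃* D_𝔪`, characterised by `ψ (τ|_{σ(E_𝔪)}) = θ₀ τ`. -/
def psi (h : Emb U E g σ) : GalEL h ≃* ↥(decomp S ↥(lvlGal U E) 𝔪) :=
  (QuotientGroup.quotientKerEquivOfSurjective (resEL h) (resEL_surjective h)).symm.trans
    ((QuotientGroup.quotientMulEquivOfEq (ker_th0 h).symm).trans
      (QuotientGroup.quotientKerEquivOfSurjective (th0 h) (th0_surjective h)))

lemma psi_resEL (h : Emb U E g σ) (τ : ↥(VV h)) : psi h (resEL h τ) = th0 h τ := by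
  have h1 : (QuotientGroup.quotientKerEquivOfSurjective (resEL h) (resEL_surjective h)).symm
      (resEL h τ) = QuotientGroup.mk τ := by
    rw [MulEquiv.symm_apply_eq]
    rfl
  unfold psi
  rw [MulEquiv.trans_apply, h1]
  rfl

/-- Equivariance of `σ` with respect to `ψ`. -/
lemma sigmaEL_locAut_psi (h : Emb U E g σ) (γ : GalEL h) (z : LocField S 𝔪) :
    sigmaEL h (locAut S ↥(lvlGal U E) 𝔪 (psi h γ) z) = γ (sigmaEL h z) := by
  obtain ⟨τ, rfl⟩ := resEL_surjective h γ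
  rw [psi_resEL, sigmaEL_locAut]

/-- The coefficient map `E_𝔪ˣ → σ(E_𝔪)ˣ`, additively. -/
def sigAdd (h : Emb U E g σ) :
    Additive (LocField S 𝔪)ˣ →+ L.unitsRep (Rec.Loc.fixedFld Q (VV h)) (EL h) :=
  (MonoidHom.toAdditive (Units.map ((sigmaEL h : LocField S 𝔪 →+* EL h) :
    LocField S 𝔪 →* EL h)) : Additive (LocField S 𝔪)ˣ →+ Additive (↥(EL h))ˣ)

lemma sigAdd_coe (h : Emb U E g σ) (a : Additive (LocField S 𝔪)ˣ) :
    (((Additive.toMul (sigAdd h a) : (↥(EL h))ˣ) : EL h)) =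
      sigmaEL h ((Additive.toMul a : (LocField S 𝔪)ˣ) : LocField S 𝔪) := rfl

lemma sigAdd_injective (h : Emb U E g σ) : Function.Injective (sigAdd h) := by
  intro a b hab
  apply Additive.toMul.injective
  apply Units.ext
  apply (sigmaEL_bijective h).1
  have := congrArg (fun x : L.unitsRep (Rec.Loc.fixedFld Q (VV h)) (EL h) =>
    (((Additive.toMul x : (↥(EL h))ˣ) : EL h))) hab
  exact this

lemma sigAdd_surjective (h : Emb U E g σ) : Function.Surjective (sigAdd h) := by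
  intro b
  obtain ⟨z, hz⟩ := (sigmaEL_bijective h).2 (((Additive.toMul b : (↥(EL h))ˣ) : EL h))
  have hz0 : z ≠ 0 := by
    rintro rfl
    rw [map_zero] at hz
    exact Units.ne_zero (Additive.toMul b : (↥(EL h))ˣ) hz.symm
  refine ⟨Additive.ofMul (Units.mk0 z hz0), ?_⟩
  apply Additive.toMul.injective
  apply Units.ext
  exact hz

lemma sigAdd_equivariant (h : Emb U E g σ) (γ : GalEL h) (a : Additive (LocField S 𝔪)ˣ) :
    sigAdd h (locRepr S ↥(lvlGal U E) 𝔪 (psi h γ) a) =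
      (L.unitsRep (Rec.Loc.fixedFld Q (VV h)) (EL h)).ρ γ (sigAdd h a) := by
  apply Additive.toMul.injective
  apply Units.ext
  exact sigmaEL_locAut_psi h γ _

/-- The underlying function of a finite-level cocycle, with values in `Additive Eˣ`. -/
def cocFun (f : cocycles₂ (LRep ↥(lvlGal U E) E)) :
    ↥(lvlGal U E) × ↥(lvlGal U E) → Additive (↥E)ˣ := fun p => f p

lemma cocFun_cocycle (f : cocycles₂ (LRep ↥(lvlGal U E) E)) (a b c : ↥(lvlGal U E)) :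
    cocFun f (a * b, c) + cocFun f (a, b) =
      lRepr ↥(lvlGal U E) E a (cocFun f (b, c)) + cocFun f (a, b * c) :=
  (mem_cocycles₂_iff (f : ↥(lvlGal U E) × ↥(lvlGal U E) → LRep ↥(lvlGal U E) E)).1 f.2 a b c

/-- The composite coefficient map `Eˣ → E_𝔪ˣ → σ(E_𝔪)ˣ`. -/
def sigLoc (h : Emb U E g σ) :
    Additive (↥E)ˣ →+ L.unitsRep (Rec.Loc.fixedFld Q (VV h)) (EL h) :=
  (sigAdd h).comp (lToLoc S 𝔪)

lemma sigLoc_apply (h : Emb U E g σ) (x : Additive (↥E)ˣ) :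
    sigLoc h x = sigAdd h (lToLoc S 𝔪 x) := rfl

lemma sigLoc_equivariant (h : Emb U E g σ) (γ : GalEL h) (x : Additive (↥E)ˣ) :
    sigLoc h (lRepr ↥(lvlGal U E) E
        ((psi h γ : ↥(decomp S ↥(lvlGal U E) 𝔪)) : ↥(lvlGal U E)) x) =
      (L.unitsRep (Rec.Loc.fixedFld Q (VV h)) (EL h)).ρ γ (sigLoc h x) := by
  rw [sigLoc_apply, sigLoc_apply, lToLoc_equivariant, sigAdd_equivariant]

/-- The local cochain attached to a finite-level cocycle. -/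
def fLocFun (h : Emb U E g σ) (f : cocycles₂ (LRep ↥(lvlGal U E) E)) :
    GalEL h × GalEL h → L.unitsRep (Rec.Loc.fixedFld Q (VV h)) (EL h) :=
  fun p => sigLoc h (cocFun f
    (((psi h p.1 : ↥(decomp S ↥(lvlGal U E) 𝔪)) : ↥(lvlGal U E)),
      ((psi h p.2 : ↥(decomp S ↥(lvlGal U E) 𝔪)) : ↥(lvlGal U E))))

lemma fLocFun_apply (h : Emb U E g σ) (f : cocycles₂ (LRep ↥(lvlGal U E) E))
    (γ₁ γ₂ : GalEL h) :
    fLocFun h f (γ₁, γ₂) = sigLoc h (cocFun f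
      (((psi h γ₁ : ↥(decomp S ↥(lvlGal U E) 𝔪)) : ↥(lvlGal U E)),
        ((psi h γ₂ : ↥(decomp S ↥(lvlGal U E) 𝔪)) : ↥(lvlGal U E)))) := rfl

set_option maxHeartbeats 1600000 in
lemma fLocFun_mem (h : Emb U E g σ) (f : cocycles₂ (LRep ↥(lvlGal U E) E)) :
    fLocFun h f ∈ cocycles₂ (L.unitsRep (Rec.Loc.fixedFld Q (VV h)) (EL h)) := by
  rw [mem_cocycles₂_iff]
  intro γ₁ γ₂ γ₃
  have h2 := congrArg (sigLoc h) (cocFun_cocycle f
    ((psi h γ₁ : ↥(decomp S ↥(lvlGal U E) 𝔪)) : ↥(lvlGal U E))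
    ((psi h γ₂ : ↥(decomp S ↥(lvlGal U E) 𝔪)) : ↥(lvlGal U E))
    ((psi h γ₃ : ↥(decomp S ↥(lvlGal U E) 𝔪)) : ↥(lvlGal U E)))
  rw [map_add, map_add, sigLoc_equivariant] at h2
  have e1 : fLocFun h f (γ₁ * γ₂, γ₃) = sigLoc h (cocFun f
      (((psi h γ₁ : ↥(decomp S ↥(lvlGal U E) 𝔪)) : ↥(lvlGal U E)) *
        ((psi h γ₂ : ↥(decomp S ↥(lvlGal U E) 𝔪)) : ↥(lvlGal U E)),
        ((psi h γ₃ : ↥(decomp S ↥(lvlGal U E) 𝔪)) : ↥(lvlGal U E)))) := by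
    rw [fLocFun_apply, show psi h (γ₁ * γ₂) = psi h γ₁ * psi h γ₂ from map_mul _ _ _,
      Subgroup.coe_mul]
  have e2 : fLocFun h f (γ₁, γ₂ * γ₃) = sigLoc h (cocFun f
      (((psi h γ₁ : ↥(decomp S ↥(lvlGal U E) 𝔪)) : ↥(lvlGal U E)),
        ((psi h γ₂ : ↥(decomp S ↥(lvlGal U E) 𝔪)) : ↥(lvlGal U E)) *
        ((psi h γ₃ : ↥(decomp S ↥(lvlGal U E) 𝔪)) : ↥(lvlGal U E)))) := by
    rw [fLocFun_apply, show psi h (γ₂ * γ₃) = psi h γ₂ * psi h γ₃ from map_mul _ _ _,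
      Subgroup.coe_mul]
  exact (congrArg (· + fLocFun h f (γ₁, γ₂)) e1).trans (h2.trans
    (congrArg ((L.unitsRep (Rec.Loc.fixedFld Q (VV h)) (EL h)).ρ γ₁ (fLocFun h f (γ₂, γ₃)) + ·)
      e2.symm))

/-- The local cocycle attached to a finite-level cocycle. -/
def fLoc (h : Emb U E g σ) (f : cocycles₂ (LRep ↥(lvlGal U E) E)) :
    cocycles₂ (L.unitsRep (Rec.Loc.fixedFld Q (VV h)) (EL h)) :=
  ⟨fLocFun h f, fLocFun_mem h f⟩

/-- The localisation of the inflation of `f` is the absolute inflation of `fLoc f`. -/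
lemma isAbsInflation_fLoc (h : Emb U E g σ) (f : cocycles₂ (LRep ↥(lvlGal U E) E))
    (c : ↥(levelCocycles₂ U.subtype (Rec.gModOn U))) (hfc : IsGlobInflation U E f c) :
    Rec.Loc.IsAbsInflation Q (VV h) (EL h) (fLoc h f) (Rec.locCocycles₂ Q g U c) := by
  unfold Rec.Loc.IsAbsInflation
  rw [Rec.coe_locCocycles₂]
  funext ⟨τ₁, τ₂⟩
  have h1 : Rec.locCochain₂ Q g U (c : ↥U × ↥U → Rec.gModOn U) (τ₁, τ₂) =
      Rec.locPush Q g U ((c : ↥U × ↥U → Rec.gModOn U)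
        (Rec.locHom Q g U τ₁, Rec.locHom Q g U τ₂)) := rfl
  rw [h1, hfc]
  apply Additive.toMul.injective
  apply Units.ext
  change padicEmbedding Q (g⁻¹ (((Additive.toMul ((f : ↥(lvlGal U E) × ↥(lvlGal U E) →
      Additive (↥E)ˣ) (lvlHom U E (Rec.locHom Q g U τ₁), lvlHom U E (Rec.locHom Q g U τ₂))) :
      (↥E)ˣ) : E) : Qb)) =
    σ (toLoc S 𝔪 ((Additive.toMul ((f : ↥(lvlGal U E) × ↥(lvlGal U E) →
      Additive (↥E)ˣ) (((psi h (resEL h τ₁) : ↥(decomp S ↥(lvlGal U E) 𝔪)) : ↥(lvlGal U E)),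
        ((psi h (resEL h τ₂) : ↥(decomp S ↥(lvlGal U E) 𝔪)) : ↥(lvlGal U E)))) : (↥E)ˣ) : E))
  rw [psi_resEL, psi_resEL, h.h1]
  rfl

set_option maxHeartbeats 1600000 in
/-- Transport of a coboundary from `Gal(σ(E_𝔪)/K_V)` to `D_𝔪`. -/
lemma sigAdd_d₁₂ (h : Emb U E g σ)
    (bloc : GalEL h → L.unitsRep (Rec.Loc.fixedFld Q (VV h)) (EL h))
    (b : ↥(decomp S ↥(lvlGal U E) 𝔪) → Additive (LocField S 𝔪)ˣ)
    (hb : ∀ d, sigAdd h (b d) = bloc ((psi h).symm d))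
    (d₁ d₂ : ↥(decomp S ↥(lvlGal U E) 𝔪)) :
    sigAdd h (locRepr S ↥(lvlGal U E) 𝔪 d₁ (b d₂) - b (d₁ * d₂) + b d₁) =
      (L.unitsRep (Rec.Loc.fixedFld Q (VV h)) (EL h)).ρ ((psi h).symm d₁)
        (bloc ((psi h).symm d₂)) - bloc ((psi h).symm d₁ * (psi h).symm d₂) +
        bloc ((psi h).symm d₁) := by
  have e3 : sigAdd h (locRepr S ↥(lvlGal U E) 𝔪 d₁ (b d₂)) =
      (L.unitsRep (Rec.Loc.fixedFld Q (VV h)) (EL h)).ρ ((psi h).symm d₁)
        (bloc ((psi h).symm d₂)) := by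
    have := sigAdd_equivariant h ((psi h).symm d₁) (b d₂)
    rw [MulEquiv.apply_symm_apply, hb] at this
    exact this
  have e4 : (psi h).symm d₁ * (psi h).symm d₂ = (psi h).symm (d₁ * d₂) :=
    (map_mul (psi h).symm d₁ d₂).symm
  rw [map_add, map_sub, e3, hb, hb, e4]

lemma fLocFun_symm (h : Emb U E g σ) (f : cocycles₂ (LRep ↥(lvlGal U E) E))
    (d₁ d₂ : ↥(decomp S ↥(lvlGal U E) 𝔪)) :
    fLocFun h f ((psi h).symm d₁, (psi h).symm d₂) =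
      sigAdd h (lToLoc S 𝔪 (cocFun f ((d₁ : ↥(lvlGal U E)), (d₂ : ↥(lvlGal U E))))) := by
  rw [fLocFun_apply, MulEquiv.apply_symm_apply, MulEquiv.apply_symm_apply]
  rfl

/-- The cocycle `f` localised at `𝔪` is a coboundary as soon as `fLoc f` is. -/
lemma mapCocycles₂_mem_coboundaries₂ (h : Emb U E g σ) (f : cocycles₂ (LRep ↥(lvlGal U E) E))
    (hcob : fLocFun h f ∈ coboundaries₂ (L.unitsRep (Rec.Loc.fixedFld Q (VV h)) (EL h))) :
    ((mapCocycles₂ (decomp S ↥(lvlGal U E) 𝔪).subtype (lToLocRepHom S ↥(lvlGal U E) 𝔪)).hom f :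
      ↥(decomp S ↥(lvlGal U E) 𝔪) × ↥(decomp S ↥(lvlGal U E) 𝔪) → LocRep S ↥(lvlGal U E) 𝔪) ∈
      coboundaries₂ (LocRep S ↥(lvlGal U E) 𝔪) := by
  obtain ⟨bloc, hbloc⟩ := hcob
  have hsurj : ∀ d : ↥(decomp S ↥(lvlGal U E) 𝔪), ∃ a : Additive (LocField S 𝔪)ˣ,
      sigAdd h a = bloc ((psi h).symm d) := fun d => sigAdd_surjective h _
  choose b hb using hsurj
  refine ⟨b, ?_⟩
  funext ⟨d₁, d₂⟩
  apply sigAdd_injective h
  have e2 : (L.unitsRep (Rec.Loc.fixedFld Q (VV h)) (EL h)).ρ ((psi h).symm d₁)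
        (bloc ((psi h).symm d₂)) - bloc ((psi h).symm d₁ * (psi h).symm d₂) +
        bloc ((psi h).symm d₁) = fLocFun h f ((psi h).symm d₁, (psi h).symm d₂) :=
    congrFun hbloc ((psi h).symm d₁, (psi h).symm d₂)
  exact (sigAdd_d₁₂ h bloc b hb d₁ d₂).trans (e2.trans (fLocFun_symm h f d₁ d₂))

/-- **Core of HP-D4b.** -/
theorem localTransfer_core (h : Emb U E g σ) (f : cocycles₂ (LRep ↥(lvlGal U E) E))
    (c : ↥(levelCocycles₂ U.subtype (Rec.gModOn U))) (hfc : IsGlobInflation U E f c)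
    (hloc : Rec.locBr Q g U (continuousH2π U.subtype (Rec.gModOn U) c) = 0) :
    (locMapL S ↥(lvlGal U E) 𝔪 2).hom ((H2π (LRep ↥(lvlGal U E) E)).hom f) = 0 := by
  -- the local class vanishes at the finite level `σ(E_𝔪) / K_V`
  have hloc' : ((Rec.locCocycles₂ Q g U c : ↥(levelCocycles₂ (Rec.lHom Q (VV h))
      (Rec.lModOn Q (VV h)))) : ↥(VV h) × ↥(VV h) → Rec.lModOn Q (VV h)) ∈
      levelCoboundaries₂ (Rec.lHom Q (VV h)) (Rec.lModOn Q (VV h)) :=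
    (continuousH2π_eq_zero_iff _ _ _).1 hloc
  have hcls : L.cls (fLoc h f) = 0 :=
    Rec.Loc.H363.down Q (VV h) (isOpenL_VV h) (EL h) (fLoc h f) (Rec.locCocycles₂ Q g U c)
      (isAbsInflation_fLoc h f c hfc) hloc'
  have hcob : fLocFun h f ∈ coboundaries₂ (L.unitsRep (Rec.Loc.fixedFld Q (VV h)) (EL h)) :=
    (H2π_eq_zero_iff (fLoc h f)).1 hcls
  have hgoal : (locMapL S ↥(lvlGal U E) 𝔪 2).hom ((H2π (LRep ↥(lvlGal U E) ↥E)).hom f) =
      (H2π (LocRep S ↥(lvlGal U E) 𝔪)).hom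
        ((mapCocycles₂ (decomp S ↥(lvlGal U E) 𝔪).subtype
          (lToLocRepHom S ↥(lvlGal U E) 𝔪)).hom f) :=
    congr($(H2π_comp_map (decomp S ↥(lvlGal U E) 𝔪).subtype (lToLocRepHom S ↥(lvlGal U E) 𝔪)) f)
  rw [hgoal]
  exact (H2π_eq_zero_iff _).2 (mapCocycles₂_mem_coboundaries₂ h f hcob)

end Fermat.Agent.S55.G.HP.D4bH717
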